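import Fermat.Agent.EC.Tate.Adic
import Fermat.Agent.EC.Mult.Decomposition
import Fermat.Agent.EC.Det.CyclotomicChar
import Fermat.Prelude.Def_GaloisRep_StrictOrdinary
import Mathlib.LinearAlgebra.Matrix.Charpoly.Coeff

/-!
# The Tate module at a multiplicative prime

`W` over `ℤ`, `q ∣ Δ`, `q ∤ c₄`.  The `p`-adic representation (any prime `p`) has, at every place
over `q`, a line stable under the decomposition group, with the quotient acted on by a sign
trivial on inertia.  Consequences: for `p ≠ q` a Frobenius has characteristic polynomial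
`(X - zq)(X - z)`; for `p = q` the representation is strictly ordinary at `p`.
-/

set_option autoImplicit false

noncomputable section

open WeierstrassCurve Polynomial
open scoped WeierstrassCurve.Affine

namespace Fermat.Agent.EC

local notation "Qb" => AlgebraicClosure ℚ

variable (W : WeierstrassCurve ℤ) [(W.map (Int.castRingHom ℚ)).IsElliptic] (p : ℕ)
  [hp : Fact p.Prime] {q : ℕ}

/-- The decomposition line of the Tate module at a multiplicative prime. -/
theorem exists_tateLine (hq : q.Prime) (hΔ0 : W.Δ ≠ 0) (hΔ : (q : ℤ) ∣ W.Δ)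
    (hc4 : ¬ (q : ℤ) ∣ W.c₄) (A : ValuationSubring Qb) (hA : A.LiesOverPrime q) :
    ∃ b : Module.Basis (Fin 2) ℤ_[p] (tateRep (W.map (Int.castRingHom ℚ)) p).V,
      (∀ σ ∈ A.decompositionSubgroup ℚ, ∀ v ∈ ℤ_[p] ∙ b 0,
        (tateRep (W.map (Int.castRingHom ℚ)) p).ρ σ v ∈ ℤ_[p] ∙ b 0) ∧
      (∀ σ ∈ A.inertiaSubgroupIn ℚ, ∀ v,
        (tateRep (W.map (Int.castRingHom ℚ)) p).ρ σ v - v ∈ ℤ_[p] ∙ b 0) ∧
      (∀ σ ∈ A.decompositionSubgroup ℚ, ∃ x z : ℤ_[p], z * z = 1 ∧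
        (∀ w ∈ ℤ_[p] ∙ b 0, (tateRep (W.map (Int.castRingHom ℚ)) p).ρ σ w = x • w) ∧
        (∀ v, (tateRep (W.map (Int.castRingHom ℚ)) p).ρ σ v - z • v ∈ ℤ_[p] ∙ b 0) ∧
        LinearMap.det ((tateRep (W.map (Int.castRingHom ℚ)) p).ρ σ) = x * z ∧
        LinearMap.charpoly ((tateRep (W.map (Int.castRingHom ℚ)) p).ρ σ) = (X - C x) * (X - C z) ∧
        (p ≠ q → ∀ n a : ℕ, (∀ μ : Qb, μ ^ p ^ n = 1 → σ μ = μ ^ a) →
          PadicInt.toZModPow n x = PadicInt.toZModPow n ((a : ℤ_[p]) * z))) := by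
  obtain ⟨D⟩ := Mult.nonempty_multData hq hA hΔ0 hΔ hc4
  obtain ⟨T, P, hT0, hP0, hT, hP, hTt, hPt, hTE, hgen, hspan, hind⟩ :=
    D.exists_compatible_basis hq hA hΔ hp.out
  let g₁ : TateModule ((W.map (Int.castRingHom ℚ))⁄Qb).Point p := ⟨T, hT0, hT⟩
  let g₂ : TateModule ((W.map (Int.castRingHom ℚ))⁄Qb).Point p := ⟨P, hP0, hP⟩
  have hpair : IsTorsionPair p (g₁.1 1) (g₂.1 1) := by
    refine ⟨?_, ?_, fun a b h => ?_⟩
    · rw [natCast_zsmul]; simpa using hTt 1
    · rw [natCast_zsmul]; simpa using hPt 1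
    · simpa using hind 1 a b h
  have hbij := TateModule.frameMap_bijective hpair
    (natCard_torsion_prime_pow (W.map (Int.castRingHom ℚ)) p)
  let b : Module.Basis (Fin 2) ℤ_[p] (tateRep (W.map (Int.castRingHom ℚ)) p).V :=
    Module.Basis.ofEquivFun (LinearEquiv.ofBijective _ hbij).symm
  have hb0 : b 0 = g₁ := by
    classical
    show (Module.Basis.ofEquivFun (LinearEquiv.ofBijective _ hbij).symm) 0 = _
    rw [Module.Basis.coe_ofEquivFun]
    show TateModule.frameMap g₁ g₂ (Pi.single 0 1) = g₁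
    rw [TateModule.frameMap_apply, Pi.single_eq_same, Pi.single_eq_of_ne one_ne_zero]
    exact (congrArg₂ (· + ·) (one_smul ℤ_[p] g₁) (zero_smul ℤ_[p] g₂)).trans (add_zero g₁)
  have hb1 : b 1 = g₂ := by
    classical
    show (Module.Basis.ofEquivFun (LinearEquiv.ofBijective _ hbij).symm) 1 = _
    rw [Module.Basis.coe_ofEquivFun]
    show TateModule.frameMap g₁ g₂ (Pi.single 1 1) = g₂
    rw [TateModule.frameMap_apply, Pi.single_eq_same, Pi.single_eq_of_ne zero_ne_one]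
    exact (congrArg₂ (· + ·) (zero_smul ℤ_[p] g₁) (one_smul ℤ_[p] g₂)).trans (zero_add g₂)
  -- membership in the line
  have hmem : ∀ v : TateModule ((W.map (Int.castRingHom ℚ))⁄Qb).Point p,
      v ∈ (ℤ_[p] ∙ g₁ : Submodule ℤ_[p] _) ↔ ∀ n, D.OnIdentityComponent (v.1 n) := by
    intro v
    constructor
    · intro hv n
      obtain ⟨x, rfl⟩ := Submodule.mem_span_singleton.mp hv
      obtain ⟨k, hk⟩ := TateModule.exists_int_level x n
      rw [TateModule.smul_apply g₁ hk, Mult.MultData.OnIdentityComponent, map_zsmul]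
      exact TateTheta.isE0_zsmul D.hc0 D.hc (hTE n) k
    · intro hv
      obtain ⟨c, hc⟩ := hbij.2 v
      rw [TateModule.frameMap_apply] at hc
      have h1 : c 1 = 0 := by
        refine PadicInt.ext_of_toZModPow.1 fun n => ?_
        obtain ⟨a, ha⟩ := TateModule.exists_int_level (c 0) n
        obtain ⟨k, hk⟩ := TateModule.exists_int_level (c 1) n
        obtain ⟨i, hi⟩ := hgen n (v.1 n) (TateModule.pow_nsmul_coe v n) (hv n)
        have hn : v.1 n = a • T n + k • P n := by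
          rw [← hc]
          show (c 0 • g₁).1 n + (c 1 • g₂).1 n = _
          rw [TateModule.smul_apply g₁ ha, TateModule.smul_apply g₂ hk]
        rw [hn, ← natCast_zsmul] at hi
        have h0 : (a - i) • T n + k • P n = 0 := by
          rw [sub_smul, sub_add_eq_add_sub, hi, sub_self]
        rw [map_zero, ← hk, ZMod.intCast_zmod_eq_zero_iff_dvd]
        exact_mod_cast (hind n _ k h0).2
      rw [← hc, h1, show (0 : ℤ_[p]) • g₂ = 0 from zero_smul ℤ_[p] g₂, add_zero]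
      exact Submodule.smul_mem _ _ (Submodule.mem_span_singleton_self g₁)
  have hz : ∀ (s : ℤ) (v : TateModule ((W.map (Int.castRingHom ℚ))⁄Qb).Point p) (n : ℕ),
      (((s : ℤ_[p]) • v).1 n) = s • v.1 n := fun s v n =>
    TateModule.smul_apply v (by simp)
  refine ⟨b, ?_, ?_, ?_⟩
  · intro σ hσ v hv
    rw [hb0] at hv ⊢
    have hv := (hmem v).mp hv
    exact (hmem ((tateRep (W.map (Int.castRingHom ℚ)) p).ρ σ v)).mpr fun n =>
      D.onIdentityComponent_smul hσ (hv n)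
  · intro σ hσ v
    rw [hb0]
    refine (hmem ((tateRep (W.map (Int.castRingHom ℚ)) p).ρ σ v - v)).mpr fun n => ?_
    have h := D.onIdentityComponent_smul_sub (Mult.mem_decompositionSubgroup_of_mem_inertia hσ)
      (v.1 n)
    rw [D.sign_eq_one_of_mem_inertia hσ, one_smul] at h
    exact h
  · intro σ hσ
    obtain ⟨x, hx⟩ := Submodule.mem_span_singleton.mp
      ((hmem ((tateRep (W.map (Int.castRingHom ℚ)) p).ρ σ g₁)).mpr fun n =>
        D.onIdentityComponent_smul hσ (hTE n))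
    have hquot : ∀ v, (tateRep (W.map (Int.castRingHom ℚ)) p).ρ σ v - (D.sign σ : ℤ_[p]) • v ∈
        ℤ_[p] ∙ b 0 := by
      intro v
      rw [hb0]
      refine (hmem ((tateRep (W.map (Int.castRingHom ℚ)) p).ρ σ v - (D.sign σ : ℤ_[p]) • v)).mpr
        fun n => ?_
      refine Eq.mpr (congrArg (fun t => D.OnIdentityComponent (σ • v.1 n - t)) (hz (D.sign σ) v n)) ?_
      exact D.onIdentityComponent_smul_sub hσ (v.1 n)
    have hmat : LinearMap.toMatrix b b ((tateRep (W.map (Int.castRingHom ℚ)) p).ρ σ) 0 0 = x ∧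
        LinearMap.toMatrix b b ((tateRep (W.map (Int.castRingHom ℚ)) p).ρ σ) 1 0 = 0 ∧
        LinearMap.toMatrix b b ((tateRep (W.map (Int.castRingHom ℚ)) p).ρ σ) 1 1 =
          (D.sign σ : ℤ_[p]) := by
      have e0 : (tateRep (W.map (Int.castRingHom ℚ)) p).ρ σ (b 0) = x • b 0 := by
        rw [hb0]; exact hx.symm
      obtain ⟨y, hy⟩ := Submodule.mem_span_singleton.mp (hquot (b 1))
      have e1 : (tateRep (W.map (Int.castRingHom ℚ)) p).ρ σ (b 1) =
          y • b 0 + (D.sign σ : ℤ_[p]) • b 1 := by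
        rw [hy, sub_add_cancel]
      simp [LinearMap.toMatrix_apply, e0, e1]
    obtain ⟨m00, m10, m11⟩ := hmat
    refine ⟨x, (D.sign σ : ℤ_[p]), by rw [← Int.cast_mul, D.sign_mul_self, Int.cast_one],
      ?_, hquot, ?_, ?_, ?_⟩
    · intro w hw
      rw [hb0] at hw
      obtain ⟨r, rfl⟩ := Submodule.mem_span_singleton.mp hw
      refine (LinearMap.map_smul ((tateRep (W.map (Int.castRingHom ℚ)) p).ρ σ) r g₁).trans ?_
      rw [← hx]
      exact smul_comm r x (g₁ : (tateRep (W.map (Int.castRingHom ℚ)) p).V)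
    · rw [← LinearMap.det_toMatrix b, Matrix.det_fin_two, m00, m10, m11]
      ring
    · rw [← LinearMap.charpoly_toMatrix _ b, Matrix.charpoly_fin_two, Matrix.trace_fin_two,
        Matrix.det_fin_two, m00, m10, m11]
      simp only [map_add, map_sub, map_mul, map_zero, mul_zero, sub_zero]
      ring
    · intro hpq n a ha
      obtain ⟨k, hk⟩ := TateModule.exists_int_level x n
      have h1 : ((x • g₁ : TateModule ((W.map (Int.castRingHom ℚ))⁄Qb).Point p)).1 n = σ • T n :=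
        congrArg (fun v : TateModule ((W.map (Int.castRingHom ℚ))⁄Qb).Point p => v.1 n) hx
      rw [TateModule.smul_apply g₁ hk] at h1
      have hres : ((p ^ n : ℕ) : IsLocalRing.ResidueField A) ≠ 0 :=
        natCast_residue_ne_zero A hq hA fun h =>
          hpq ((Nat.prime_dvd_prime_iff_eq hq hp.out).1 (hq.dvd_of_dvd_pow h)).symm
      have h2 : σ • T n = (D.sign σ * (a : ℤ)) • T n :=
        D.smul_eq_of_onIdentityComponent hσ hres ha (hTt n) (hTE n)
      have h0 : (k - D.sign σ * (a : ℤ)) • T n + (0 : ℤ) • P n = 0 := by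
        rw [zero_zsmul, add_zero, sub_smul, sub_eq_zero, ← h2]
        exact h1
      rw [← hk, map_mul, map_natCast, map_intCast,
        show (a : ZMod (p ^ n)) * (D.sign σ : ZMod (p ^ n)) = ((D.sign σ * (a : ℤ) : ℤ) : ZMod (p ^ n))
          by push_cast; ring,
        ZMod.intCast_eq_intCast_iff_dvd_sub, ← dvd_neg, neg_sub]
      exact_mod_cast (hind n _ 0 h0).1

/-- **Strict ordinarity at a multiplicative prime `p`**, given that `det` is cyclotomic. -/
theorem tateRep_isStrictOrdinaryAt (hΔ0 : W.Δ ≠ 0) (hΔ : (p : ℤ) ∣ W.Δ)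
    (hc4 : ¬ (p : ℤ) ∣ W.c₄)
    (hdet : (tateRep (W.map (Int.castRingHom ℚ)) p).DetIsCyclotomic p) :
    (tateRep (W.map (Int.castRingHom ℚ)) p).IsStrictOrdinaryAt p := by
  refine ⟨hdet.1, fun A hA => ?_⟩
  obtain ⟨b, hD, hI, hchar⟩ := exists_tateLine W p hp.out hΔ0 hΔ hc4 A hA
  refine ⟨ℤ_[p] ∙ b 0, ⟨b, rfl⟩, hD, hI, fun σ hσ => ?_⟩
  obtain ⟨x, z, hzz, hx, hz, hdetxz, -, -⟩ := hchar σ hσ
  refine ⟨x, z, hx, hz, fun n a ha => ?_⟩
  have h := Ideal.mul_mem_right z _ (hdet.2 n σ a ha)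
  rw [hdetxz, sub_mul, mul_assoc, hzz, mul_one] at h
  exact h

/-- Strict ordinarity implies ordinarity; this needs no determinant. -/
theorem tateRep_isOrdinaryAt (hΔ0 : W.Δ ≠ 0) (hΔ : (p : ℤ) ∣ W.Δ) (hc4 : ¬ (p : ℤ) ∣ W.c₄) :
    (tateRep (W.map (Int.castRingHom ℚ)) p).IsOrdinaryAt p := by
  intro A hA
  obtain ⟨b, hD, hI, -⟩ := exists_tateLine W p hp.out hΔ0 hΔ hc4 A hA
  exact ⟨ℤ_[p] ∙ b 0, ⟨b, rfl⟩, hD, hI⟩

/-- **Frobenius at a multiplicative prime `q ≠ p`** has characteristic polynomial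
`(X - zq)(X - z)` with `z = ±1`. -/
theorem tateRep_charpoly_frobenius_mult (hq : q.Prime) (hqp : q ≠ p) (hΔ0 : W.Δ ≠ 0)
    (hΔ : (q : ℤ) ∣ W.Δ) (hc4 : ¬ (q : ℤ) ∣ W.c₄) (A : ValuationSubring Qb)
    (hA : A.LiesOverPrime q) {σ : Qb ≃ₐ[ℚ] Qb} (hσ : A.IsFrobeniusAt σ q) :
    ∃ z : ℤ_[p], (z = 1 ∨ z = -1) ∧
      LinearMap.charpoly ((tateRep (W.map (Int.castRingHom ℚ)) p).ρ σ) =
        (X - C ((q : ℤ_[p]) * z)) * (X - C z) := by
  obtain ⟨b, -, -, hchar⟩ := exists_tateLine W p hq hΔ0 hΔ hc4 A hA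
  obtain ⟨x, z, hzz, -, -, -, hpoly, hx⟩ := hchar σ hσ.mem_decompositionSubgroup
  refine ⟨z, mul_self_eq_one_iff.mp hzz, ?_⟩
  suffices x = (q : ℤ_[p]) * z by rw [hpoly, this]
  refine PadicInt.ext_of_toZModPow.1 fun n => hx hqp.symm n q fun μ hμ => ?_
  have : NeZero (p ^ n) := ⟨pow_ne_zero n hp.out.ne_zero⟩
  rw [apply_eq_pow_cycloChar (p ^ n) σ hμ,
    cycloChar_eq_of_isFrobeniusAt hq (fun h => hqp ((Nat.prime_dvd_prime_iff_eq hq hp.out).1
      (hq.dvd_of_dvd_pow h))) hA hσ, ZMod.val_natCast]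
  exact (pow_eq_pow_mod q hμ).symm

/-- Unipotent inertia at a multiplicative prime `q ≠ p`. -/
theorem tateRep_isUnipotentOnInertiaAt_mult (hq : q.Prime) (hqp : q ≠ p) (hΔ0 : W.Δ ≠ 0)
    (hΔ : (q : ℤ) ∣ W.Δ) (hc4 : ¬ (q : ℤ) ∣ W.c₄) :
    (tateRep (W.map (Int.castRingHom ℚ)) p).IsUnipotentOnInertiaAt q := by
  intro A hA σ hσ
  obtain ⟨b, -, hI, hchar⟩ := exists_tateLine W p hq hΔ0 hΔ hc4 A hA
  obtain ⟨x, z, -, -, hz, -, hpoly, hx⟩ :=
    hchar σ (Mult.mem_decompositionSubgroup_of_mem_inertia hσ)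
  have hz1 : z = 1 := by
    have h : (1 - z) • b 1 ∈ ℤ_[p] ∙ b 0 := by
      have := Submodule.sub_mem _ (hz (b 1)) (hI σ hσ (b 1))
      rwa [sub_sub_sub_cancel_left, ← one_smul ℤ_[p] (b 1), smul_smul, mul_one, ← sub_smul] at this
    obtain ⟨r, hr⟩ := Submodule.mem_span_singleton.mp h
    have h' := congrArg (fun v => b.repr v 1) hr
    simp at h'
    exact (sub_eq_zero.mp h'.symm).symm
  have hx1 : x = 1 := by
    refine PadicInt.ext_of_toZModPow.1 fun n => ?_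
    have : NeZero (p ^ n) := ⟨pow_ne_zero n hp.out.ne_zero⟩
    rw [hx hqp.symm n 1 fun μ hμ => ?_, hz1, Nat.cast_one, mul_one]
    rw [apply_eq_pow_cycloChar (p ^ n) σ hμ, cycloChar_eq_one_of_mem_inertia hq
      (fun h => hqp ((Nat.prime_dvd_prime_iff_eq hq hp.out).1 (hq.dvd_of_dvd_pow h))) hA hσ,
      Units.val_one]
    rcases eq_or_ne (p ^ n) 1 with h1 | h1
    · rw [h1, pow_one] at hμ
      simp [hμ]
    · have : Fact (1 < p ^ n) := ⟨lt_of_le_of_ne (Nat.pos_of_ne_zero (NeZero.ne _)) (Ne.symm h1)⟩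
      rw [ZMod.val_one]
  rw [hpoly, hx1, hz1, map_one, sq]

end Fermat.Agent.EC
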