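import Fermat.Agent.EC.Tate.Module
import Fermat.Agent.EC.Torsion.Rat
import Fermat.Prelude.Def_GaloisRep_Adic
import Fermat.Prelude.Def_GaloisRep_ResidualEquiv
import Mathlib.NumberTheory.Padics.RingHoms
import Mathlib.LinearAlgebra.Charpoly.ToMatrix

/-!
# The `p`-adic Galois representation of an elliptic curve over `ℚ`
-/

namespace Fermat.Agent.EC

open scoped WeierstrassCurve.Affine TensorProduct
open WeierstrassCurve.Affine

local notation "Qbar" => AlgebraicClosure ℚ

variable (W : WeierstrassCurve ℚ) [W.IsElliptic] (p : ℕ) [hp : Fact p.Prime]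

theorem isElliptic_baseChange_qbar : (W⁄Qbar).IsElliptic :=
  inferInstanceAs (W.map (algebraMap ℚ Qbar)).IsElliptic

theorem point_nsmul_surjective :
    Function.Surjective fun x : (W⁄Qbar).Point => p • x :=
  haveI := isElliptic_baseChange_qbar W
  nsmul_surjective hp.out.ne_zero

theorem natCard_torsion_prime_pow (n : ℕ) :
    Nat.card (Submodule.torsionBy ℤ (W⁄Qbar).Point (p ^ n : ℕ)) = (p ^ n) ^ 2 :=
  natCard_torsion_rat W (pow_ne_zero n hp.out.ne_zero)

/-- A basis of the Tate module. -/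
noncomputable def tateBasis :
    Module.Basis (Fin 2) ℤ_[p] (TateModule (W⁄Qbar).Point p) :=
  (TateModule.nonempty_basis (point_nsmul_surjective W p) (natCard_torsion_prime_pow W p)).some

/-- The `p`-adic representation on the Tate module. -/
noncomputable def tateRep : GaloisRepAdic ℤ_[p] where
  V := TateModule (W⁄Qbar).Point p
  instFree := Module.Free.of_basis (tateBasis W p)
  instFinite := Module.Finite.of_basis (tateBasis W p)
  finrank_eq := by rw [Module.finrank_eq_card_basis (tateBasis W p), Fintype.card_fin]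
  ρ := TateModule.action (W⁄Qbar).Point p (Qbar ≃ₐ[ℚ] Qbar)
  isAdicContinuous n := by
    have : Algebra.IsAlgebraic ℚ Qbar := AlgebraicClosure.isAlgebraic ℚ
    obtain ⟨L, hL, h⟩ :=
      exists_finite_level_torsion (S := ℚ) (K := Qbar) W (pow_ne_zero n hp.out.ne_zero)
    refine ⟨L, hL, fun σ hσ f => ?_⟩
    rw [PadicInt.maximalIdeal_eq_span_p, ← TateModule.proj_eq_zero_iff, map_sub, sub_eq_zero]
    exact h σ hσ (TateModule.proj n f)

/-- A basis of the space of the `p`-adic representation. -/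
noncomputable def tateRepBasis : Module.Basis (Fin 2) ℤ_[p] (tateRep W p).V :=
  tateBasis W p

/-- The projection of the Tate module to `E[p ^ n]`. -/
noncomputable def tateProj (n : ℕ) :
    (tateRep W p).V →+ Submodule.torsionBy ℤ (W⁄Qbar).Point (p ^ n : ℕ) :=
  TateModule.proj n

theorem tateProj_ρ (n : ℕ) (σ : Qbar ≃ₐ[ℚ] Qbar) (v : (tateRep W p).V) :
    tateProj W p n ((tateRep W p).ρ σ v) = σ • tateProj W p n v :=
  rfl

theorem tateProj_surjective (n : ℕ) : Function.Surjective (tateProj W p n) :=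
  TateModule.proj_surjective (point_nsmul_surjective W p) n

theorem tateProj_eq_zero_iff (n : ℕ) (v : (tateRep W p).V) :
    tateProj W p n v = 0 ↔
      v ∈ (IsLocalRing.maximalIdeal ℤ_[p] ^ n) • (⊤ : Submodule ℤ_[p] (tateRep W p).V) := by
  rw [PadicInt.maximalIdeal_eq_span_p]
  exact TateModule.proj_eq_zero_iff n v

theorem tateProj_smul (n : ℕ) (z : ℤ_[p]) (v : (tateRep W p).V) :
    tateProj W p n (z • v) = PadicInt.toZModPow n z • tateProj W p n v := by
  refine (TateModule.proj_smul z n v (k := ((PadicInt.toZModPow n z).val : ℤ))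
    (by rw [Int.cast_natCast, ZMod.natCast_zmod_val])).trans ?_
  rw [natCast_zsmul, ← Nat.cast_smul_eq_nsmul (ZMod (p ^ n)), ZMod.natCast_zmod_val]
  rfl

/-- The projection as a semilinear map. -/
noncomputable def tateProjₛₗ (n : ℕ) :
    (tateRep W p).V →ₛₗ[PadicInt.toZModPow (p := p) n]
      Submodule.torsionBy ℤ (W⁄Qbar).Point (p ^ n : ℕ) where
  toFun := tateProj W p n
  map_add' := map_add _
  map_smul' := tateProj_smul W p n

/-- An element of the Tate module is determined by its projections. -/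
theorem tate_ext {v w : (tateRep W p).V} (h : ∀ n, tateProj W p n v = tateProj W p n w) : v = w :=
  Subtype.ext <| funext fun n => congrArg Subtype.val (h n)

/-- An endomorphism property holds on the Tate module as soon as it holds at every finite
level. -/
theorem tateRep_eq_of_forall_level (σ τ : Qbar ≃ₐ[ℚ] Qbar)
    (h : ∀ n (P : Submodule.torsionBy ℤ (W⁄Qbar).Point (p ^ n : ℕ)), σ • P = τ • P) :
    (tateRep W p).ρ σ = (tateRep W p).ρ τ :=
  LinearMap.ext fun v => tate_ext W p fun n => by rw [tateProj_ρ, tateProj_ρ, h]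

theorem tateRep_ρ_eq_one_iff (σ : Qbar ≃ₐ[ℚ] Qbar) :
    (tateRep W p).ρ σ = 1 ↔
      ∀ n (P : Submodule.torsionBy ℤ (W⁄Qbar).Point (p ^ n : ℕ)), σ • P = P := by
  refine ⟨fun h n P => ?_, fun h => LinearMap.ext fun v => tate_ext W p fun n => ?_⟩
  · obtain ⟨v, rfl⟩ := tateProj_surjective W p n P
    rw [← tateProj_ρ, h, Module.End.one_apply]
  · rw [tateProj_ρ, h, Module.End.one_apply]

/-- The basis of `E[p ^ n]` deduced from a basis of the Tate module. -/
theorem exists_levelBasis {ι : Type*} [Finite ι] (b : Module.Basis ι ℤ_[p] (tateRep W p).V)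
    (n : ℕ) :
    ∃ bn : Module.Basis ι (ZMod (p ^ n)) (Submodule.torsionBy ℤ (W⁄Qbar).Point (p ^ n : ℕ)),
      ∀ i, bn i = tateProj W p n (b i) := by
  cases nonempty_fintype ι
  let g : (ι → ZMod (p ^ n)) →ₗ[ZMod (p ^ n)] Submodule.torsionBy ℤ (W⁄Qbar).Point (p ^ n : ℕ) :=
    Fintype.linearCombination (ZMod (p ^ n)) fun i => tateProj W p n (b i)
  have hsurj : Function.Surjective g := fun P => by
    obtain ⟨v, rfl⟩ := tateProj_surjective W p n P
    refine ⟨fun i => PadicInt.toZModPow n (b.repr v i), ?_⟩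
    conv_rhs => rw [← b.sum_repr v, map_sum]
    rw [Fintype.linearCombination_apply]
    exact Finset.sum_congr rfl fun i _ => (tateProj_smul W p n _ _).symm
  have hι : Fintype.card ι = 2 := by
    rw [← Module.finrank_eq_card_basis b, (tateRep W p).finrank_eq]
  have hbij : Function.Bijective g := by
    have := finite_torsion_rat W (pow_ne_zero n hp.out.ne_zero)
    refine hsurj.bijective_of_nat_card_le ?_
    rw [natCard_torsion_prime_pow W p n, Nat.card_fun, Nat.card_zmod, Nat.card_eq_fintype_card, hι]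
  refine ⟨Module.Basis.ofEquivFun (LinearEquiv.ofBijective g hbij).symm, fun i => ?_⟩
  classical
  rw [Module.Basis.coe_ofEquivFun]
  show Fintype.linearCombination (ZMod (p ^ n)) (fun j => tateProj W p n (b j))
    (Pi.single i 1) = _
  rw [Fintype.linearCombination_apply_single, one_smul]

/-- The action on `E[p ^ n]` has the reduced matrix of the action on the Tate module. -/
theorem toMatrix_galoisRepModuleEnd {ι : Type*} [Fintype ι] [DecidableEq ι] {n : ℕ}
    (b : Module.Basis ι ℤ_[p] (tateRep W p).V)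
    (bn : Module.Basis ι (ZMod (p ^ n)) (Submodule.torsionBy ℤ (W⁄Qbar).Point (p ^ n : ℕ)))
    (hbn : ∀ i, bn i = tateProj W p n (b i)) (σ : Qbar ≃ₐ[ℚ] Qbar) :
    LinearMap.toMatrix bn bn
        (Point.galoisRepModuleEnd (K := Qbar) ℚ W.toAffine (p ^ n) σ) =
      (LinearMap.toMatrix b b ((tateRep W p).ρ σ)).map (PadicInt.toZModPow n) := by
  ext i j
  rw [Matrix.map_apply, LinearMap.toMatrix_apply, LinearMap.toMatrix_apply]
  have : Point.galoisRepModuleEnd (K := Qbar) ℚ W.toAffine (p ^ n) σ (bn j) =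
      ∑ k, PadicInt.toZModPow n (b.repr ((tateRep W p).ρ σ (b j)) k) • bn k := by
    rw [hbn]
    refine (tateProj_ρ W p n σ (b j)).symm.trans ?_
    conv_lhs => rw [← b.sum_repr ((tateRep W p).ρ σ (b j)), map_sum]
    exact Finset.sum_congr rfl fun k _ => by rw [hbn, tateProj_smul]
  rw [this]
  simp [Finsupp.single_apply]

theorem toZModPow_det (n : ℕ) (σ : Qbar ≃ₐ[ℚ] Qbar) :
    PadicInt.toZModPow n (LinearMap.det ((tateRep W p).ρ σ)) =
      LinearMap.det (Point.galoisRepModuleEnd (K := Qbar) ℚ W.toAffine (p ^ n) σ) := by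
  obtain ⟨bn, hbn⟩ := exists_levelBasis W p (tateRepBasis W p) n
  rw [← LinearMap.det_toMatrix (tateRepBasis W p), ← LinearMap.det_toMatrix bn,
    toMatrix_galoisRepModuleEnd W p _ bn hbn σ, RingHom.map_det, RingHom.mapMatrix_apply]

theorem toZModPow_trace (n : ℕ) (σ : Qbar ≃ₐ[ℚ] Qbar) :
    PadicInt.toZModPow n (LinearMap.trace ℤ_[p] _ ((tateRep W p).ρ σ)) =
      LinearMap.trace (ZMod (p ^ n)) _
        (Point.galoisRepModuleEnd (K := Qbar) ℚ W.toAffine (p ^ n) σ) := by
  obtain ⟨bn, hbn⟩ := exists_levelBasis W p (tateRepBasis W p) n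
  rw [LinearMap.trace_eq_matrix_trace ℤ_[p] (tateRepBasis W p),
    LinearMap.trace_eq_matrix_trace (ZMod (p ^ n)) bn,
    toMatrix_galoisRepModuleEnd W p _ bn hbn σ]
  exact AddMonoidHom.map_trace (PadicInt.toZModPow (p := p) n) _

/-- The determinant of the `p`-adic representation is determined by its levels. -/
theorem tateRep_det_eq_iff (σ : Qbar ≃ₐ[ℚ] Qbar) (z : ℤ_[p]) :
    LinearMap.det ((tateRep W p).ρ σ) = z ↔ ∀ n,
      LinearMap.det (Point.galoisRepModuleEnd (K := Qbar) ℚ W.toAffine (p ^ n) σ) =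
        PadicInt.toZModPow n z := by
  rw [← PadicInt.ext_of_toZModPow]
  simp [toZModPow_det]

/-- The trace of the `p`-adic representation is determined by its levels. -/
theorem tateRep_trace_eq_iff (σ : Qbar ≃ₐ[ℚ] Qbar) (z : ℤ_[p]) :
    (tateRep W p).trace σ = z ↔ ∀ n,
      LinearMap.trace (ZMod (p ^ n)) _
        (Point.galoisRepModuleEnd (K := Qbar) ℚ W.toAffine (p ^ n) σ) =
        PadicInt.toZModPow n z := by
  rw [← PadicInt.ext_of_toZModPow]
  simp [GaloisRepAdic.trace, toZModPow_trace]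

/-- `E[p]` and `E[p ^ 1]`. -/
noncomputable def torsionPowOneEquiv :
    Submodule.torsionBy ℤ (W⁄Qbar).Point (p ^ 1 : ℕ) ≃+
      Submodule.torsionBy ℤ (W⁄Qbar).Point p where
  toFun P := ⟨P.1, by simpa using P.2⟩
  invFun P := ⟨P.1, by simp⟩
  map_add' _ _ := rfl

/-- The reduction `T_p E → E[p]`. -/
noncomputable def tateProjOne : (tateRep W p).V →+ Submodule.torsionBy ℤ (W⁄Qbar).Point p :=
  (torsionPowOneEquiv W p).toAddMonoidHom.comp (tateProj W p 1)

theorem tateProjOne_ρ (σ : Qbar ≃ₐ[ℚ] Qbar) (v : (tateRep W p).V) :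
    tateProjOne W p ((tateRep W p).ρ σ v) = σ • tateProjOne W p v :=
  rfl

theorem tateProjOne_smul (z : ℤ_[p]) (v : (tateRep W p).V) :
    tateProjOne W p (z • v) = PadicInt.toZMod z • tateProjOne W p v := by
  have hk : (((PadicInt.toZMod z).val : ℤ) : ZMod (p ^ 1)) = PadicInt.toZModPow 1 z := by
    rw [← sub_eq_zero, ← map_intCast (PadicInt.toZModPow (p := p) 1), ← map_sub,
      ← RingHom.mem_ker, PadicInt.ker_toZModPow, pow_one, ← PadicInt.maximalIdeal_eq_span_p,
      ← PadicInt.ker_toZMod, RingHom.mem_ker, map_sub, map_intCast, Int.cast_natCast,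
      ZMod.natCast_zmod_val, sub_self]
  refine Subtype.ext ?_
  refine (TateModule.smul_apply v hk).trans ?_
  rw [natCast_zsmul]
  conv_rhs => rw [← ZMod.natCast_zmod_val (PadicInt.toZMod z), Nat.cast_smul_eq_nsmul]
  rfl

omit [W.IsElliptic] in
theorem ψ_toZMod (ψ : ZMod p →+* IsLocalRing.ResidueField ℤ_[p]) (z : ℤ_[p]) :
    ψ (PadicInt.toZMod z) = IsLocalRing.residue ℤ_[p] z := by
  have h : IsLocalRing.residue ℤ_[p] (z - (((PadicInt.toZMod z).val : ℕ) : ℤ_[p])) = 0 := by
    rw [IsLocalRing.residue_eq_zero_iff, ← PadicInt.ker_toZMod, RingHom.mem_ker, map_sub,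
      map_natCast, ZMod.natCast_zmod_val, sub_self]
  rw [map_sub, sub_eq_zero, map_natCast] at h
  rw [h, ← map_natCast ψ, ZMod.natCast_zmod_val]

theorem tateProjOne_surjective : Function.Surjective (tateProjOne W p) :=
  (torsionPowOneEquiv W p).surjective.comp (tateProj_surjective W p 1)

/-- The residual representation of the Tate module is the mod `p` representation. -/
theorem tateRep_residual_isEquiv (ψ : ZMod p →+* IsLocalRing.ResidueField ℤ_[p]) :
    (tateRep W p).residual.IsEquiv ((torsionRepRat W p).baseChangeAlong ψ) := by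
  let k := IsLocalRing.ResidueField ℤ_[p]
  let := ψ.toAlgebra
  let T := Submodule.torsionBy ℤ (W⁄Qbar).Point p
  let b := tateRepBasis W p
  let Φ : k ⊗[ℤ_[p]] (tateRep W p).V →ₗ[k] k ⊗[ZMod p] T :=
    (Algebra.TensorProduct.basis k b).constr k fun i => (1 : k) ⊗ₜ tateProjOne W p (b i)
  have key : ∀ (c : k) (v : (tateRep W p).V), Φ (c ⊗ₜ v) = c ⊗ₜ tateProjOne W p v := by
    intro c v
    conv_lhs => rw [← b.sum_repr v, TensorProduct.tmul_sum, map_sum]
    conv_rhs => rw [← b.sum_repr v, map_sum, TensorProduct.tmul_sum]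
    refine Finset.sum_congr rfl fun i _ => ?_
    have hb : Φ (1 ⊗ₜ b i) = (1 : k) ⊗ₜ tateProjOne W p (b i) := by
      rw [← Algebra.TensorProduct.basis_apply b i]
      exact Module.Basis.constr_basis _ _ _ _
    have hc : c ⊗ₜ[ℤ_[p]] (b.repr v i • b i) =
        (IsLocalRing.residue ℤ_[p] (b.repr v i) * c) • ((1 : k) ⊗ₜ[ℤ_[p]] b i) := by
      rw [TensorProduct.tmul_smul, TensorProduct.smul_tmul', TensorProduct.smul_tmul',
        smul_eq_mul, mul_one, Algebra.smul_def, IsLocalRing.ResidueField.algebraMap_eq]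
    rw [hc, map_smul, hb, tateProjOne_smul, TensorProduct.smul_tmul', smul_eq_mul, mul_one,
      TensorProduct.tmul_smul, TensorProduct.smul_tmul', Algebra.smul_def,
      RingHom.algebraMap_toAlgebra, ψ_toZMod]
  have hsurj : Function.Surjective Φ := fun x => by
    induction x using TensorProduct.induction_on with
    | zero => exact ⟨0, map_zero _⟩
    | tmul c P =>
      obtain ⟨v, rfl⟩ := tateProjOne_surjective W p P
      exact ⟨c ⊗ₜ v, key c v⟩
    | add x y hx hy =>
      obtain ⟨a, rfl⟩ := hx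
      obtain ⟨a', rfl⟩ := hy
      exact ⟨a + a', map_add _ _ _⟩
  have h1 : Module.finrank k (k ⊗[ℤ_[p]] (tateRep W p).V) = 2 := (tateRep W p).residual.finrank_eq
  have h2 : Module.finrank k (k ⊗[ZMod p] T) = 2 :=
    ((torsionRepRat W p).baseChangeAlong ψ).finrank_eq
  have : FiniteDimensional k (k ⊗[ℤ_[p]] (tateRep W p).V) :=
    Module.finite_of_finrank_eq_succ h1
  have : FiniteDimensional k (k ⊗[ZMod p] T) := Module.finite_of_finrank_eq_succ h2
  have hinj : Function.Injective Φ :=
    (LinearMap.injective_iff_surjective_of_finrank_eq_finrank (h1.trans h2.symm)).2 hsurj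
  refine ⟨⟨LinearEquiv.ofBijective Φ ⟨hinj, hsurj⟩, fun σ x => ?_⟩⟩
  show Φ (((tateRep W p).ρ σ).baseChange k x) = ((torsionRepRat W p).ρ σ).baseChange k (Φ x)
  induction x using TensorProduct.induction_on with
  | zero =>
    rw [map_zero, map_zero]
    exact (LinearMap.map_zero (((torsionRepRat W p).ρ σ).baseChange k)).symm
  | tmul c v =>
    rw [LinearMap.baseChange_tmul, key, key]
    exact (LinearMap.baseChange_tmul ((torsionRepRat W p).ρ σ) c (tateProjOne W p v)).symm
  | add x y hx hy =>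
    rw [map_add, map_add, map_add, hx, hy]
    exact (LinearMap.map_add (((torsionRepRat W p).ρ σ).baseChange k) (Φ x) (Φ y)).symm

end Fermat.Agent.EC
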