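import Fermat.Agent.EC.Torsion.Pair
import Mathlib.NumberTheory.Padics.RingHoms
import Mathlib.LinearAlgebra.Basis.Basic
import Mathlib.LinearAlgebra.FreeModule.Basic
import Mathlib.GroupTheory.GroupAction.Ring

/-!
# The `p`-adic Tate module of an abelian group

`TateModule A p` is the group of sequences `f` with `f 0 = 0` and `p • f (n + 1) = f n`; it is a
`ℤ_p`-module, free of rank two when every `A[p ^ n]` has `p ^ (2 n)` elements and `A` is
`p`-divisible.
-/

namespace Fermat.Agent.EC

variable {A : Type*} [AddCommGroup A] {p : ℕ} [hp : Fact p.Prime]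

variable (A p) in
/-- The sequences `f` with `f 0 = 0` and `p • f (n + 1) = f n`. -/
def tateSubgroup : AddSubgroup (ℕ → A) where
  carrier := {f | f 0 = 0 ∧ ∀ n, p • f (n + 1) = f n}
  zero_mem' := ⟨rfl, fun _ => smul_zero _⟩
  add_mem' hf hg := ⟨by simp [hf.1, hg.1], fun n => by simp [smul_add, hf.2 n, hg.2 n]⟩
  neg_mem' hf := ⟨by simp [hf.1], fun n => by simp [hf.2 n]⟩

variable (A p) in
/-- The `p`-adic Tate module of an abelian group. -/
abbrev TateModule : Type _ := tateSubgroup A p

theorem smul_eq_of_dvd {x : A} {N : ℕ} (hx : N • x = 0) {k k' : ℤ} (h : (N : ℤ) ∣ k - k') :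
    k • x = k' • x := by
  obtain ⟨c, hc⟩ := h
  rw [← sub_eq_zero, ← sub_smul, hc, mul_comm, mul_smul, natCast_zsmul, hx, smul_zero]

namespace TateModule

omit hp in
theorem coe_succ (f : TateModule A p) (n : ℕ) : p • f.1 (n + 1) = f.1 n := f.2.2 n

omit hp in
theorem pow_nsmul_coe_add (f : TateModule A p) (m n : ℕ) : p ^ m • f.1 (n + m) = f.1 n := by
  induction m with
  | zero => simp
  | succ m ih => rw [pow_succ, mul_smul, ← add_assoc, coe_succ, ih]

omit hp in
theorem pow_nsmul_coe (f : TateModule A p) (n : ℕ) : p ^ n • f.1 n = 0 := by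
  have := pow_nsmul_coe_add f n 0
  rw [zero_add] at this
  rw [this, f.2.1]

noncomputable instance : SMul ℤ_[p] (TateModule A p) :=
  ⟨fun z f => ⟨fun n => ((PadicInt.toZModPow n z).val : ℤ) • f.1 n, by simp [f.2.1], fun n => by
    change p • (((PadicInt.toZModPow (n + 1) z).val : ℤ) • f.1 (n + 1)) = _
    rw [smul_comm, coe_succ]
    refine smul_eq_of_dvd (pow_nsmul_coe f n) ((ZMod.intCast_eq_intCast_iff_dvd_sub _ _ _).1 ?_)
    rw [Int.cast_natCast, Int.cast_natCast, ZMod.natCast_val, ZMod.natCast_val, ZMod.cast_id',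
      id_eq, PadicInt.cast_toZModPow n (n + 1) n.le_succ]⟩⟩

/-- The action of a `p`-adic integer at level `n` is that of any integer congruent to it. -/
theorem smul_apply {z : ℤ_[p]} (f : TateModule A p) {n : ℕ} {k : ℤ}
    (h : (k : ZMod (p ^ n)) = PadicInt.toZModPow n z) : (z • f).1 n = k • f.1 n := by
  refine smul_eq_of_dvd (pow_nsmul_coe f n) ((ZMod.intCast_eq_intCast_iff_dvd_sub _ _ _).1 ?_)
  rw [h, Int.cast_natCast, ZMod.natCast_zmod_val]

theorem exists_int_level (z : ℤ_[p]) (n : ℕ) :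
    ∃ k : ℤ, (k : ZMod (p ^ n)) = PadicInt.toZModPow n z :=
  ZMod.intCast_surjective _

noncomputable instance : Module ℤ_[p] (TateModule A p) where
  one_smul f := Subtype.ext <| funext fun n => by
    rw [smul_apply f (k := 1) (by simp), one_smul]
  mul_smul z w f := Subtype.ext <| funext fun n => by
    obtain ⟨a, ha⟩ := exists_int_level z n
    obtain ⟨b, hb⟩ := exists_int_level w n
    rw [smul_apply f (k := a * b) (by simp [ha, hb]), smul_apply (w • f) ha, smul_apply f hb,
      mul_smul]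
  smul_zero z := Subtype.ext <| funext fun n => by
    obtain ⟨a, ha⟩ := exists_int_level z n
    rw [smul_apply _ ha]
    simp
  smul_add z f g := Subtype.ext <| funext fun n => by
    obtain ⟨a, ha⟩ := exists_int_level z n
    simp [smul_apply _ ha, smul_add]
  add_smul z w f := Subtype.ext <| funext fun n => by
    obtain ⟨a, ha⟩ := exists_int_level z n
    obtain ⟨b, hb⟩ := exists_int_level w n
    rw [smul_apply f (k := a + b) (by simp [ha, hb])]
    simp [smul_apply f ha, smul_apply f hb, add_smul]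
  zero_smul f := Subtype.ext <| funext fun n => by
    rw [smul_apply f (k := 0) (by simp), zero_smul]
    rfl

/-- The projection to `A[p ^ n]`. -/
def proj (n : ℕ) : TateModule A p →+ Submodule.torsionBy ℤ A (p ^ n : ℕ) where
  toFun f := ⟨f.1 n, by
    rw [Submodule.mem_torsionBy_iff, natCast_zsmul]
    exact pow_nsmul_coe f n⟩
  map_zero' := rfl
  map_add' _ _ := rfl

omit hp in
@[simp] theorem coe_proj (n : ℕ) (f : TateModule A p) : (proj n f : A) = f.1 n := rfl

omit hp in
/-- If multiplication by `p` is surjective, every point of `A[p ^ n]` extends to the Tate module. -/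
theorem proj_surjective (hdiv : Function.Surjective fun x : A => p • x) (n : ℕ) :
    Function.Surjective (proj (A := A) (p := p) n) := by
  rintro ⟨x, hx⟩
  rw [Submodule.mem_torsionBy_iff, natCast_zsmul] at hx
  choose lift hlift using hdiv
  simp only at hlift
  refine ⟨⟨fun m => if m ≤ n then p ^ (n - m) • x else lift^[m - n] x, by simp [hx], fun m => ?_⟩,
    Subtype.ext (by simp [proj])⟩
  rcases lt_trichotomy m n with h | rfl | h
  · simp only [if_pos (show m + 1 ≤ n by omega), if_pos h.le, ← mul_smul, ← pow_succ']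
    congr 2
    omega
  · simp [hlift]
  · simp only [if_neg (show ¬m + 1 ≤ n by omega), if_neg (show ¬m ≤ n by omega),
      show m + 1 - n = m - n + 1 by omega, Function.iterate_succ_apply', hlift]

theorem proj_smul (z : ℤ_[p]) (n : ℕ) (f : TateModule A p) {k : ℤ}
    (h : (k : ZMod (p ^ n)) = PadicInt.toZModPow n z) : proj n (z • f) = k • proj n f :=
  Subtype.ext (smul_apply f h)

theorem proj_eq_zero_iff (n : ℕ) (f : TateModule A p) :
    proj n f = 0 ↔ f ∈ (Ideal.span {(p : ℤ_[p])} ^ n) • (⊤ : Submodule ℤ_[p] (TateModule A p)) := by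
  rw [Ideal.span_singleton_pow, Submodule.ideal_span_singleton_smul,
    Submodule.mem_smul_pointwise_iff_exists]
  constructor
  · intro h
    have h0 : f.1 n = 0 := congrArg Subtype.val h
    refine ⟨⟨fun m => f.1 (m + n), by simpa using h0, fun m => ?_⟩, trivial, ?_⟩
    · show p • f.1 (m + 1 + n) = f.1 (m + n)
      rw [add_right_comm]
      exact coe_succ f (m + n)
    · refine Subtype.ext <| funext fun m => ?_
      show ((p : ℤ_[p]) ^ n • _ : TateModule A p).1 m = f.1 m
      rw [smul_apply _ (k := ((p ^ n : ℕ) : ℤ)) (by simp), natCast_zsmul]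
      exact pow_nsmul_coe_add f n m
  · rintro ⟨g, -, rfl⟩
    refine Subtype.ext ?_
    show ((p : ℤ_[p]) ^ n • g : TateModule A p).1 n = 0
    rw [smul_apply _ (k := ((p ^ n : ℕ) : ℤ)) (by simp), natCast_zsmul]
    exact pow_nsmul_coe g n

section Frame

variable (f₁ f₂ : TateModule A p)

omit hp in
theorem isTorsionPair_level (h : IsTorsionPair p (f₁.1 1) (f₂.1 1)) (n : ℕ) :
    IsTorsionPair (p ^ n) (f₁.1 n) (f₂.1 n) := by
  refine ⟨by rw [natCast_zsmul]; exact pow_nsmul_coe f₁ n,
    by rw [natCast_zsmul]; exact pow_nsmul_coe f₂ n, ?_⟩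
  induction n with
  | zero => exact fun a b _ => by simp
  | succ n ih =>
    intro a b hab
    have hn : a • f₁.1 n + b • f₂.1 n = 0 := by
      rw [← coe_succ f₁ n, ← coe_succ f₂ n, smul_comm a, smul_comm b, ← smul_add, hab, smul_zero]
    obtain ⟨⟨a', rfl⟩, b', rfl⟩ := ih a b hn
    have h1 : a' • f₁.1 1 + b' • f₂.1 1 = 0 := by
      rw [← pow_nsmul_coe_add f₁ n 1, ← pow_nsmul_coe_add f₂ n 1, add_comm 1 n, ← natCast_zsmul,
        ← natCast_zsmul, ← hab, ← mul_smul, ← mul_smul, mul_comm a', mul_comm b']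
    obtain ⟨ha, hb⟩ := h.2.2 a' b' h1
    push_cast
    rw [pow_succ]
    exact ⟨mul_dvd_mul_left _ ha, mul_dvd_mul_left _ hb⟩

/-- The map `ℤ_p² → T_p A` given by two elements. -/
noncomputable def frameMap : (Fin 2 → ℤ_[p]) →ₗ[ℤ_[p]] TateModule A p :=
  Fintype.linearCombination ℤ_[p] ![f₁, f₂]

theorem frameMap_apply (c : Fin 2 → ℤ_[p]) :
    frameMap f₁ f₂ c = c 0 • f₁ + c 1 • f₂ := by
  simp [frameMap, Fintype.linearCombination_apply, Fin.sum_univ_two]

variable {f₁ f₂}

theorem frameMap_bijective (h : IsTorsionPair p (f₁.1 1) (f₂.1 1))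
    (hcard : ∀ n : ℕ, Nat.card (Submodule.torsionBy ℤ A (p ^ n : ℕ)) = (p ^ n) ^ 2) :
    Function.Bijective (frameMap f₁ f₂) := by
  have hlev := isTorsionPair_level f₁ f₂ h
  constructor
  · rw [injective_iff_map_eq_zero]
    intro c hc
    suffices ∀ n, PadicInt.toZModPow n (c 0) = 0 ∧ PadicInt.toZModPow n (c 1) = 0 by
      funext i
      refine PadicInt.ext_of_toZModPow.1 fun n => ?_
      fin_cases i <;> simp [(this n).1, (this n).2]
    intro n
    obtain ⟨a, ha⟩ := exists_int_level (c 0) n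
    obtain ⟨b, hb⟩ := exists_int_level (c 1) n
    have := congrArg (fun f : TateModule A p => f.1 n) hc
    rw [frameMap_apply] at this
    simp only [AddSubgroup.coe_add, Pi.add_apply, smul_apply f₁ ha, smul_apply f₂ hb,
      ZeroMemClass.coe_zero, Pi.zero_apply] at this
    obtain ⟨hda, hdb⟩ := (hlev n).2.2 a b this
    rw [← ha, ← hb]
    exact ⟨(ZMod.intCast_zmod_eq_zero_iff_dvd _ _).2 hda,
      (ZMod.intCast_zmod_eq_zero_iff_dvd _ _).2 hdb⟩
  · intro f
    have hex : ∀ n, ∃ ab : ℤ × ℤ, f.1 n = ab.1 • f₁.1 n + ab.2 • f₂.1 n := fun n => by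
      obtain ⟨e, he1, he2⟩ := (hlev n).exists_addEquiv (hcard n)
      obtain ⟨⟨u, v⟩, huv⟩ := e.surjective (proj n f)
      refine ⟨((u.val : ℤ), (v.val : ℤ)), ?_⟩
      have huv' : ((u, v) : ZMod (p ^ n) × ZMod (p ^ n)) = u.val • (1, 0) + v.val • (0, 1) := by
        simp
      rw [natCast_zsmul, natCast_zsmul, ← he1, ← he2, ← coe_proj n f, ← huv, huv', map_add,
        map_nsmul, map_nsmul]
      rfl
    choose ab hab using hex
    have hcompat : ∀ n, ((p ^ n : ℕ) : ℤ) ∣ (ab (n + 1)).1 - (ab n).1 ∧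
        ((p ^ n : ℕ) : ℤ) ∣ (ab (n + 1)).2 - (ab n).2 := fun n => by
      refine (hlev n).2.2 _ _ ?_
      have := coe_succ f n
      rw [hab (n + 1), hab n, smul_add, smul_comm p, smul_comm p, coe_succ, coe_succ] at this
      rw [sub_smul, sub_smul]
      linear_combination (norm := abel) this
    have hlim : ∀ s : ℕ → ℤ, (∀ n, ((p ^ n : ℕ) : ℤ) ∣ s (n + 1) - s n) →
        ∃ L : ℤ_[p], ∀ n, (s n : ZMod (p ^ n)) = PadicInt.toZModPow n L := fun s hs => by
      have hmn : ∀ {m n : ℕ}, m ≤ n → ((p ^ m : ℕ) : ℤ) ∣ s n - s m := fun {m n} hmn => by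
        induction hmn with
        | refl => simp
        | @step k hk ih =>
          have h1 : ((p ^ m : ℕ) : ℤ) ∣ s (k + 1) - s k :=
            (Int.natCast_dvd_natCast.2 (pow_dvd_pow p hk)).trans (hs k)
          simpa using dvd_add h1 ih
      obtain ⟨L, hL⟩ := IsPrecomplete.prec (I := IsLocalRing.maximalIdeal ℤ_[p]) inferInstance
        (f := fun n => (s n : ℤ_[p])) (fun {m n} h => by
          rw [SModEq.sub_mem, smul_eq_mul, Ideal.mul_top, PadicInt.maximalIdeal_eq_span_p,
            Ideal.span_singleton_pow, ← PadicInt.ker_toZModPow, RingHom.mem_ker, map_sub, map_intCast, map_intCast,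
            sub_eq_zero, ZMod.intCast_eq_intCast_iff_dvd_sub]
          exact hmn h)
      refine ⟨L, fun n => ?_⟩
      have := hL n
      rw [SModEq.sub_mem, smul_eq_mul, Ideal.mul_top, PadicInt.maximalIdeal_eq_span_p,
        Ideal.span_singleton_pow, ← PadicInt.ker_toZModPow, RingHom.mem_ker, map_sub, map_intCast, sub_eq_zero] at this
      exact this
    obtain ⟨x, hx⟩ := hlim (fun n => (ab n).1) fun n => (hcompat n).1
    obtain ⟨y, hy⟩ := hlim (fun n => (ab n).2) fun n => (hcompat n).2
    refine ⟨![x, y], Subtype.ext <| funext fun n => ?_⟩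
    rw [frameMap_apply]
    simp [smul_apply f₁ (hx n), smul_apply f₂ (hy n), hab n]

/-- The Tate module is free of rank two. -/
theorem nonempty_basis (hdiv : Function.Surjective fun x : A => p • x)
    (hcard : ∀ n : ℕ, Nat.card (Submodule.torsionBy ℤ A (p ^ n : ℕ)) = (p ^ n) ^ 2) :
    Nonempty (Module.Basis (Fin 2) ℤ_[p] (TateModule A p)) := by
  obtain ⟨e₁, e₂, he⟩ := exists_isTorsionPair_prime hp.out (by simpa using hcard 1)
  have hmem : ∀ e : A, (p : ℤ) • e = 0 → e ∈ Submodule.torsionBy ℤ A (p ^ 1 : ℕ) := fun e h => by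
    simpa [Submodule.mem_torsionBy_iff] using h
  obtain ⟨g₁, hg₁⟩ := proj_surjective hdiv 1 ⟨e₁, hmem _ he.1⟩
  obtain ⟨g₂, hg₂⟩ := proj_surjective hdiv 1 ⟨e₂, hmem _ he.2.1⟩
  have hg₁' : g₁.1 1 = e₁ := congrArg Subtype.val hg₁
  have hg₂' : g₂.1 1 = e₂ := congrArg Subtype.val hg₂
  exact ⟨Module.Basis.ofEquivFun (LinearEquiv.ofBijective _
    (frameMap_bijective (f₁ := g₁) (f₂ := g₂) (by rwa [hg₁', hg₂']) hcard)).symm⟩

end Frame

variable {G : Type*} [Monoid G] [DistribMulAction G A]

omit hp in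
theorem smul_mem (σ : G) {f : ℕ → A} (hf : f ∈ tateSubgroup A p) :
    (fun n => σ • f n) ∈ tateSubgroup A p :=
  ⟨by simp [hf.1], fun n => by rw [smul_comm, hf.2 n]⟩

variable (A p G) in
/-- The action induced on the Tate module. -/
noncomputable def action : G →* Module.End ℤ_[p] (TateModule A p) where
  toFun σ :=
    { toFun := fun f => ⟨fun n => σ • f.1 n, smul_mem σ f.2⟩
      map_add' := fun f g => Subtype.ext <| funext fun n => smul_add σ (f.1 n) (g.1 n)
      map_smul' := fun z f => Subtype.ext <| funext fun n => by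
        obtain ⟨k, hk⟩ := exists_int_level z n
        rw [RingHom.id_apply, smul_apply _ hk]
        show σ • (z • f).1 n = _
        rw [smul_apply f hk]
        exact map_zsmul (DistribSMul.toAddMonoidHom A σ) k (f.1 n) }
  map_one' := LinearMap.ext fun f => Subtype.ext <| funext fun n => one_smul G (f.1 n)
  map_mul' σ τ := LinearMap.ext fun f => Subtype.ext <| funext fun n => mul_smul σ τ (f.1 n)

theorem coe_action (σ : G) (f : TateModule A p) (n : ℕ) :
    (action A p G σ f).1 n = σ • f.1 n := rfl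

end TateModule

end Fermat.Agent.EC
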