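import Fermat.Agent.EC.Tate.Adic
import Fermat.Agent.EC.Tate.Multiplicative
import Fermat.Agent.EC.Det.Cyclotomic
import Fermat.Agent.EC.Det.DetOfFrobenius
import Fermat.Agent.EC.Frob.Trace
import Fermat.Agent.EC.Red.Qbar
import Fermat.Agent.EC.Flat.Torsion
import Fermat.Prelude.Def_GaloisRep_StrictOrdinary

/-!
# Global and local properties of the Tate module of an elliptic curve over `ℚ`

The determinant is cyclotomic, the representation is unramified at good primes away from `p`,
strictly ordinary at a multiplicative `p` and it satisfies the flat or strictly ordinary deformation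
condition.
-/

set_option autoImplicit false

noncomputable section

open WeierstrassCurve.Affine.Point
open scoped WeierstrassCurve.Affine

namespace Fermat.Agent.EC

local notation "Qbar" => AlgebraicClosure ℚ

variable {W : WeierstrassCurve ℤ} (hΔ : W.Δ ≠ 0) (p : ℕ) [hp : Fact p.Prime]
include hΔ

/-- `det` of the action on `E[n]` is the mod `n` cyclotomic character, for every `n > 1`. -/
theorem det_galoisRepModuleEnd_eq_cycloChar_of_one_lt (n : ℕ) [NeZero n] (hn : 1 < n)
    (σ : Qbar ≃ₐ[ℚ] Qbar) :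
    LinearMap.det (galoisRepModuleEnd (K := Qbar) ℚ (W.map (Int.castRingHom ℚ)) n σ) =
      (cycloChar n σ : ZMod n) := by
  haveI := isElliptic_map_rat hΔ
  haveI := finite_torsion_rat (W.map (Int.castRingHom ℚ)) (NeZero.ne n)
  rw [← coe_galoisRepDet, galoisRepDet_eq_cycloChar_of_frobenius (W.map (Int.castRingHom ℚ)) n
    (W.Δ.natAbs.primeFactors ∪ n.primeFactors) (fun l hl hlS A τ hA hτ => ?_) σ]
  simp only [Finset.mem_union, Nat.mem_primeFactors, not_or, not_and, ne_eq] at hlS
  refine det_frobenius_torsion W hl hA (fun h => ?_) hτ hn fun h => hlS.2 hl h (NeZero.ne n)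
  exact hlS.1 hl (Int.natCast_dvd.1 h) (Int.natAbs_ne_zero.2 hΔ)

/-- The determinant of the Tate module is the cyclotomic character. -/
theorem tateRep_detIsCyclotomic :
    haveI := isElliptic_map_rat hΔ
    (tateRep (W.map (Int.castRingHom ℚ)) p).DetIsCyclotomic p := by
  haveI := isElliptic_map_rat hΔ
  refine ⟨by rw [IsLocalRing.mem_maximalIdeal, mem_nonunits_iff]; exact PadicInt.p_nonunit,
    fun n σ a ha => ?_⟩
  rw [← sub_add_cancel (LinearMap.det ((tateRep (W.map (Int.castRingHom ℚ)) p).ρ σ)) (a : ℤ_[p]),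
    add_sub_cancel_right, Nat.cast_pow, ← PadicInt.ker_toZModPow, RingHom.mem_ker, map_sub,
    map_natCast, sub_eq_zero, toZModPow_det]
  rcases eq_or_ne n 0 with rfl | hn
  · haveI : Subsingleton (ZMod (p ^ 0)) := by rw [pow_zero]; infer_instance
    exact Subsingleton.elim _ _
  · obtain ⟨ζ, hζ⟩ := exists_primitiveRoot_qbar (p ^ n)
    exact (det_galoisRepModuleEnd_eq_cycloChar_of_one_lt hΔ (p ^ n)
      (Nat.one_lt_pow hn hp.out.one_lt) σ).trans
      (cycloChar_eq_of_apply_eq_pow (p ^ n) σ hζ (ha ζ hζ.pow_eq_one))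

/-- The Tate module is unramified at good primes away from `p`. -/
theorem tateRep_isUnramifiedAt {q : ℕ} (hq : q.Prime) (hgood : W.IsGoodPrimeFor q) (hqp : q ≠ p) :
    haveI := isElliptic_map_rat hΔ
    (tateRep (W.map (Int.castRingHom ℚ)) p).IsUnramifiedAt q := by
  haveI := isElliptic_map_rat hΔ
  intro A hA σ hσ
  refine (tateRep_ρ_eq_one_iff _ p σ).mpr fun n P => ?_
  exact galoisRepUnramifiedAt_of_isGoodPrimeFor W hq hgood
    (fun h => hqp ((Nat.prime_dvd_prime_iff_eq hq hp.out).mp (hq.dvd_of_dvd_pow h))) A hA σ hσ P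

/-- At a prime `p` of multiplicative reduction the Tate module is strictly ordinary. -/
theorem tateRep_isStrictOrdinaryAt_of_mult (hbad : (p : ℤ) ∣ W.Δ) (hc4 : ¬ (p : ℤ) ∣ W.c₄) :
    haveI := isElliptic_map_rat hΔ
    (tateRep (W.map (Int.castRingHom ℚ)) p).IsStrictOrdinaryAt p := by
  have := isElliptic_map_rat hΔ
  exact tateRep_isStrictOrdinaryAt W p hΔ hbad hc4 (tateRep_detIsCyclotomic hΔ p)

/-- The flat deformation condition for the Tate module at a good prime `p`. -/
theorem tateRep_flatCondition (𝒪 : Type) [CommRing 𝒪] [Algebra 𝒪 ℤ_[p]] (S : Finset ℕ)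
    (hgood : W.IsGoodPrimeFor p) (hpS : p ∈ S) (hS : ∀ q : ℕ, q.Prime → (q : ℤ) ∣ W.Δ → q ∈ S) :
    haveI := isElliptic_map_rat hΔ
    GaloisRep.flatCondition 𝒪 p S (tateRep (W.map (Int.castRingHom ℚ)) p) := by
  have := isElliptic_map_rat hΔ
  exact ⟨tateRep_detIsCyclotomic hΔ p, tateRep_isFlatAt W hgood, fun q hq hqS =>
    tateRep_isUnramifiedAt hΔ p hq (fun h => hqS (hS q hq h)) fun h => hqS (h ▸ hpS)⟩

/-- The strictly ordinary deformation condition for the Tate module at a multiplicative `p`. -/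
theorem tateRep_strictOrdinaryCondition (𝒪 : Type) [CommRing 𝒪] [Algebra 𝒪 ℤ_[p]] (S : Finset ℕ)
    (hbad : (p : ℤ) ∣ W.Δ) (hc4 : ¬ (p : ℤ) ∣ W.c₄)
    (hS : ∀ q : ℕ, q.Prime → (q : ℤ) ∣ W.Δ → q ∈ S) :
    haveI := isElliptic_map_rat hΔ
    GaloisRep.strictOrdinaryCondition 𝒪 p S (tateRep (W.map (Int.castRingHom ℚ)) p) := by
  have := isElliptic_map_rat hΔ
  exact ⟨tateRep_detIsCyclotomic hΔ p, tateRep_isStrictOrdinaryAt_of_mult hΔ p hbad hc4,
    fun q hq hqS => tateRep_isUnramifiedAt hΔ p hq (fun h => hqS (hS q hq h))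
      fun h => hqS (h ▸ hS p hp.out hbad)⟩

end Fermat.Agent.EC
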